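import Fermat.Agent.Thirteen.Summary

/-!
# Kubert's curves with a rational point of order `5`, `7` or `9`

Tate's normal form at the parameter `u / v`, cleared of denominators. For coprime `u`, `v` the
discriminant and `c₄` share no prime, except `5`, `7` or `3` under the obvious congruence.
-/

set_option autoImplicit false

noncomputable section

open WeierstrassCurve

namespace FA.Kubert

/-- The quadratic form of the fifth family. -/
def form5 (u v : ℤ) : ℤ := u ^ 2 - 11 * u * v - v ^ 2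

/-- The cubic form of the seventh family. -/
def form7 (u v : ℤ) : ℤ := u ^ 3 - 8 * u ^ 2 * v + 5 * u * v ^ 2 + v ^ 3

/-- The quadratic form of the ninth family. -/
def form9Sq (u v : ℤ) : ℤ := u ^ 2 - u * v + v ^ 2

/-- The cubic form of the ninth family. -/
def form9Cu (u v : ℤ) : ℤ := u ^ 3 - 6 * u ^ 2 * v + 3 * u * v ^ 2 + v ^ 3

/-- The curve with a point of order five. -/
def curve5 (u v : ℤ) : WeierstrassCurve ℤ := ⟨v - u, -(u * v), -(u * v ^ 2), 0, 0⟩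

/-- The curve with a point of order seven. -/
def curve7 (u v : ℤ) : WeierstrassCurve ℤ :=
  ⟨v ^ 2 + u * v - u ^ 2, -(u ^ 2 * (u - v) * v), -(u ^ 2 * (u - v) * v ^ 3), 0, 0⟩

/-- The curve with a point of order nine. -/
def curve9 (u v : ℤ) : WeierstrassCurve ℤ :=
  ⟨v ^ 3 - u ^ 2 * (u - v), -(u ^ 2 * (u - v) * form9Sq u v * v),
    -(u ^ 2 * (u - v) * form9Sq u v * v ^ 4), 0, 0⟩

variable {u v : ℤ}

theorem curve5_Δ : (curve5 u v).Δ = (u * v) ^ 5 * form5 u v := by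
  simp [curve5, form5, WeierstrassCurve.Δ, b₂, b₄, b₆, b₈]; ring

theorem curve7_Δ : (curve7 u v).Δ = (u * v * (u - v)) ^ 7 * form7 u v := by
  simp [curve7, form7, WeierstrassCurve.Δ, b₂, b₄, b₆, b₈]; ring

theorem curve9_Δ :
    (curve9 u v).Δ = (u * v * (u - v)) ^ 9 * (form9Sq u v ^ 3 * form9Cu u v) := by
  simp [curve9, form9Sq, form9Cu, WeierstrassCurve.Δ, b₂, b₄, b₆, b₈]; ring

theorem curve5_c₄ : (curve5 u v).c₄ =
    u ^ 4 - 12 * u ^ 3 * v + 14 * u ^ 2 * v ^ 2 + 12 * u * v ^ 3 + v ^ 4 := by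
  simp [curve5, WeierstrassCurve.c₄, b₂, b₄]; ring

theorem curve7_c₄ : (curve7 u v).c₄ =
    u ^ 8 - 12 * u ^ 7 * v + 42 * u ^ 6 * v ^ 2 - 56 * u ^ 5 * v ^ 3 + 35 * u ^ 4 * v ^ 4 -
      14 * u ^ 2 * v ^ 6 + 4 * u * v ^ 7 + v ^ 8 := by
  simp [curve7, WeierstrassCurve.c₄, b₂, b₄]; ring

theorem curve9_c₄ : (curve9 u v).c₄ =
    u ^ 12 - 12 * u ^ 11 * v + 54 * u ^ 10 * v ^ 2 - 128 * u ^ 9 * v ^ 3 + 189 * u ^ 8 * v ^ 4 -
      180 * u ^ 7 * v ^ 5 + 114 * u ^ 6 * v ^ 6 - 36 * u ^ 5 * v ^ 7 - 18 * u ^ 4 * v ^ 8 +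
      28 * u ^ 3 * v ^ 9 - 12 * u ^ 2 * v ^ 10 + v ^ 12 := by
  simp [curve9, form9Sq, WeierstrassCurve.c₄, b₂, b₄]; ring

theorem zmod_key (hco : IsCoprime u v) {q : ℕ} (hq : q.Prime) (hu : (u : ZMod q) = 0)
    (hv : (v : ZMod q) = 0) : False := by
  have : Fact q.Prime := ⟨hq⟩
  exact (Nat.prime_iff_prime_int.1 hq).not_isUnit
    (hco.isUnit_of_dvd' ((ZMod.intCast_zmod_eq_zero_iff_dvd _ _).1 hu)
      ((ZMod.intCast_zmod_eq_zero_iff_dvd _ _).1 hv))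

theorem add_eq_zero_mod_three : ∀ a b : ZMod 3,
    a ^ 2 - a * b + b ^ 2 = 0 ∨ a ^ 3 - 6 * a ^ 2 * b + 3 * a * b ^ 2 + b ^ 3 = 0 → a + b = 0 := by
  decide

theorem eq_of_cast_eq_zero {q c : ℕ} (hq : q.Prime) (hc : c.Prime)
    (h : (c : ZMod q) = 0) : q = c :=
  (Nat.prime_dvd_prime_iff_eq hq hc).1 ((ZMod.natCast_eq_zero_iff _ _).1 h)

/-- The fifth curve is semistable away from five. -/
theorem curve5_semistable (hco : IsCoprime u v) (h5 : ¬ (5 : ℤ) ∣ form5 u v) {q : ℕ}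
    (hq : q.Prime) (hΔ : (q : ℤ) ∣ (curve5 u v).Δ) : ¬ (q : ℤ) ∣ (curve5 u v).c₄ := by
  intro hc
  have : Fact q.Prime := ⟨hq⟩
  rw [← ZMod.intCast_zmod_eq_zero_iff_dvd, curve5_Δ] at hΔ
  rw [← ZMod.intCast_zmod_eq_zero_iff_dvd, curve5_c₄] at hc
  simp only [form5] at hΔ h5
  push_cast at hΔ hc
  rw [mul_eq_zero, pow_eq_zero_iff (by norm_num : (5 : ℕ) ≠ 0), mul_eq_zero] at hΔ
  rcases hΔ with (h | h) | h
  · exact zmod_key hco hq h (pow_eq_zero_iff (n := 4) (by norm_num) |>.1 (by simpa [h] using hc))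
  · exact zmod_key hco hq (pow_eq_zero_iff (n := 4) (by norm_num) |>.1 (by simpa [h] using hc)) h
  · set U := (u : ZMod q)
    set V := (v : ZMod q)
    have h0 : (5 : ZMod q) * V ^ 5 = 0 := by
      linear_combination (11 * U ^ 3 - 133 * U ^ 2 * V + 166 * U * V ^ 2 + 117 * V ^ 3) * h +
        (-11 * U + 122 * V) * hc
    rcases mul_eq_zero.1 h0 with e | e
    · obtain rfl := eq_of_cast_eq_zero hq (by norm_num : Nat.Prime 5) (by exact_mod_cast e)
      exact h5 ((ZMod.intCast_zmod_eq_zero_iff_dvd _ 5).1 (by push_cast; exact h))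
    · have e' : V = 0 := (pow_eq_zero_iff (by norm_num)).1 e
      exact zmod_key hco hq ((pow_eq_zero_iff (n := 4) (by norm_num)).1 (by simpa [e'] using hc)) e'

/-- The seventh curve is semistable away from seven. -/
theorem curve7_semistable (hco : IsCoprime u v) (h7 : ¬ (7 : ℤ) ∣ form7 u v) {q : ℕ}
    (hq : q.Prime) (hΔ : (q : ℤ) ∣ (curve7 u v).Δ) : ¬ (q : ℤ) ∣ (curve7 u v).c₄ := by
  intro hc
  have : Fact q.Prime := ⟨hq⟩
  rw [← ZMod.intCast_zmod_eq_zero_iff_dvd, curve7_Δ] at hΔ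
  rw [← ZMod.intCast_zmod_eq_zero_iff_dvd, curve7_c₄] at hc
  simp only [form7] at hΔ h7
  push_cast at hΔ hc
  rw [mul_eq_zero, pow_eq_zero_iff (by norm_num : (7 : ℕ) ≠ 0), mul_eq_zero, mul_eq_zero] at hΔ
  rcases hΔ with ((h | h) | h) | h
  · exact zmod_key hco hq h ((pow_eq_zero_iff (n := 8) (by norm_num)).1 (by simpa [h] using hc))
  · exact zmod_key hco hq ((pow_eq_zero_iff (n := 8) (by norm_num)).1 (by simpa [h] using hc)) h
  · rw [sub_eq_zero.1 h] at hc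
    have hv := (pow_eq_zero_iff (n := 8) (by norm_num)).1
      (show (v : ZMod q) ^ 8 = 0 by linear_combination hc)
    exact zmod_key hco hq ((sub_eq_zero.1 h).trans hv) hv
  · set U := (u : ZMod q)
    set V := (v : ZMod q)
    have h0 : (49 : ZMod q) * V ^ 10 = 0 := by
      linear_combination (444 * U ^ 7 - 4781 * U ^ 6 * V + 12530 * U ^ 5 * V ^ 2 -
          6853 * U ^ 4 * V ^ 3 - 693 * U ^ 3 * V ^ 4 + 6776 * U ^ 2 * V ^ 5 - 1540 * U * V ^ 6 -
          1661 * V ^ 7) * h + (-444 * U ^ 2 + 3005 * U * V + 1710 * V ^ 2) * hc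
    rcases mul_eq_zero.1 h0 with e | e
    · rw [show (49 : ZMod q) = ((7 : ℕ) : ZMod q) ^ 2 by norm_num,
        pow_eq_zero_iff (by norm_num)] at e
      obtain rfl := eq_of_cast_eq_zero hq (by norm_num : Nat.Prime 7) e
      exact h7 ((ZMod.intCast_zmod_eq_zero_iff_dvd _ 7).1 (by push_cast; exact h))
    · have e' : V = 0 := (pow_eq_zero_iff (by norm_num)).1 e
      exact zmod_key hco hq ((pow_eq_zero_iff (n := 8) (by norm_num)).1 (by simpa [e'] using hc)) e'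

/-- The ninth curve is semistable away from three. -/
theorem curve9_semistable (hco : IsCoprime u v) (h3 : ¬ (3 : ℤ) ∣ u + v) {q : ℕ}
    (hq : q.Prime) (hΔ : (q : ℤ) ∣ (curve9 u v).Δ) : ¬ (q : ℤ) ∣ (curve9 u v).c₄ := by
  intro hc
  have : Fact q.Prime := ⟨hq⟩
  rw [← ZMod.intCast_zmod_eq_zero_iff_dvd, curve9_Δ] at hΔ
  rw [← ZMod.intCast_zmod_eq_zero_iff_dvd, curve9_c₄] at hc
  simp only [form9Sq, form9Cu] at hΔ
  push_cast at hΔ hc
  rw [mul_eq_zero, pow_eq_zero_iff (by norm_num : (9 : ℕ) ≠ 0), mul_eq_zero, mul_eq_zero,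
    mul_eq_zero, pow_eq_zero_iff (by norm_num : (3 : ℕ) ≠ 0)] at hΔ
  set U := (u : ZMod q) with hU
  set V := (v : ZMod q) with hV
  have nine : ∀ k, (9 : ZMod q) * V ^ k = 0 →
      (U ^ 2 - U * V + V ^ 2 = 0 ∨ U ^ 3 - 6 * U ^ 2 * V + 3 * U * V ^ 2 + V ^ 3 = 0) → False := by
    intro k h0 hf
    rcases mul_eq_zero.1 h0 with e | e
    · rw [show (9 : ZMod q) = ((3 : ℕ) : ZMod q) ^ 2 by norm_num,
        pow_eq_zero_iff (by norm_num)] at e
      obtain rfl := eq_of_cast_eq_zero hq (by norm_num : Nat.Prime 3) e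
      refine h3 ((ZMod.intCast_zmod_eq_zero_iff_dvd _ 3).1 ?_)
      push_cast
      rw [← hU, ← hV]
      exact add_eq_zero_mod_three U V hf
    · have e' : V = 0 := (pow_eq_zero_iff'.1 e).1
      exact zmod_key hco hq ((pow_eq_zero_iff (n := 12) (by norm_num)).1 (by simpa [e'] using hc))
        e'
  rcases hΔ with ((h | h) | h) | h | h
  · exact zmod_key hco hq h ((pow_eq_zero_iff (n := 12) (by norm_num)).1 (by simpa [h] using hc))
  · exact zmod_key hco hq ((pow_eq_zero_iff (n := 12) (by norm_num)).1 (by simpa [h] using hc)) h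
  · rw [sub_eq_zero.1 h] at hc
    have hv := (pow_eq_zero_iff (n := 12) (by norm_num)).1
      (show V ^ 12 = 0 by linear_combination hc)
    exact zmod_key hco hq ((sub_eq_zero.1 h).trans hv) hv
  · refine nine 13 ?_ (Or.inl h)
    linear_combination (U ^ 11 - 11 * U ^ 10 * V + 42 * U ^ 9 * V ^ 2 - 75 * U ^ 8 * V ^ 3 +
        72 * U ^ 7 * V ^ 4 - 33 * U ^ 6 * V ^ 5 + 9 * U ^ 5 * V ^ 6 + 6 * U ^ 4 * V ^ 7 -
        21 * U ^ 3 * V ^ 8 + U ^ 2 * V ^ 9 + 10 * U * V ^ 10 + 9 * V ^ 11) * h + (-U) * hc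
  · refine nine 14 ?_ (Or.inr h)
    linear_combination (377 * U ^ 11 - 4187 * U ^ 10 * V + 16582 * U ^ 9 * V ^ 2 -
        33054 * U ^ 8 * V ^ 3 + 40128 * U ^ 7 * V ^ 4 - 28593 * U ^ 6 * V ^ 5 +
        12843 * U ^ 5 * V ^ 6 + 1827 * U ^ 4 * V ^ 7 - 7482 * U ^ 3 * V ^ 8 +
        4418 * U ^ 2 * V ^ 9 - 83 * U * V ^ 10 - 614 * V ^ 11) * h +
      (-377 * U ^ 2 + 1925 * U * V + 623 * V ^ 2) * hc

end FA.Kubert

end
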