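import Fermat.Agent.Kubert.Curves

/-!
# Exponents in the discriminant

If the exponents of every prime outside `M` are multiples of `p ≥ 11`, no semistable discriminant
has them, `M < 11` or `M = 13`; and such exponents pass to coprime factors.
-/

set_option autoImplicit false

noncomputable section

open WeierstrassCurve

namespace FA.Kubert

/-- The small levels: no cusp form of weight two. -/
def IsSmallLevel (M : ℕ) : Prop := M ≠ 0 ∧ (M < 11 ∨ M = 13)

/-- The exponents of the primes outside `M` are multiples of `p`. -/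
def IsPowerOutside (p M : ℕ) (x : ℤ) : Prop :=
  ∀ q : ℕ, q.Prime → ¬ q ∣ M → p ∣ padicValInt q x

theorem false_of_exponents {W : WeierstrassCurve ℤ} (hΔ : W.Δ ≠ 0)
    (hW : ∀ q : ℕ, q.Prime → (q : ℤ) ∣ W.Δ → ¬ (q : ℤ) ∣ W.c₄) {p : ℕ} (hp : p.Prime)
    (h11 : 11 ≤ p) {M : ℕ} (hM : IsSmallLevel M) (h : IsPowerOutside p M W.Δ) : False := by
  obtain ⟨hM0, hM⟩ := hM
  obtain ⟨h1, h2⟩ := FA.Summary.discriminantPrimes_all W hΔ hW hp h11
  have hd : (∏ q ∈ W.Δ.natAbs.primeFactors.filter (fun q => ¬ p ∣ padicValInt q W.Δ), q) ∣ M :=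
    Finset.prod_primes_dvd M
      (fun q hq => (Nat.prime_of_mem_primeFactors (Finset.mem_filter.1 hq).1).prime) fun q hq => by
        by_contra hqM
        exact (Finset.mem_filter.1 hq).2
          (h q (Nat.prime_of_mem_primeFactors (Finset.mem_filter.1 hq).1) hqM)
  rcases hM with hlt | rfl
  · have := Nat.le_of_dvd (Nat.pos_of_ne_zero hM0) hd
    omega
  · rcases (Nat.dvd_prime (by norm_num)).1 hd with e | e <;> omega

theorem isPowerOutside_of_eq {p n M : ℕ} (hpn : p ∣ n) {x A w : ℤ} (hA : A ≠ 0) (hw : w ≠ 0)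
    (hs : ∀ q : ℕ, q.Prime → (q : ℤ) ∣ A → q ∣ M) (h : x = A * w ^ n) :
    IsPowerOutside p M x := fun q hq hqM => by
  have : Fact q.Prime := ⟨hq⟩
  rw [h, padicValInt.mul hA (pow_ne_zero _ hw),
    padicValInt.eq_zero_of_not_dvd fun hd => hqM (hs q hq hd), zero_add, padicValInt,
    Int.natAbs_pow, padicValNat.pow _ _]
  exact hpn.mul_right _

variable {p M : ℕ} {x y : ℤ}

theorem IsPowerOutside.mul (hx : IsPowerOutside p M x) (hy : IsPowerOutside p M y) :
    IsPowerOutside p M (x * y) := fun q hq hqM => by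
  rcases eq_or_ne x 0 with rfl | hx0
  · simp
  rcases eq_or_ne y 0 with rfl | hy0
  · simp
  have : Fact q.Prime := ⟨hq⟩
  rw [padicValInt.mul hx0 hy0]
  exact dvd_add (hx q hq hqM) (hy q hq hqM)

theorem IsPowerOutside.pow (hx : IsPowerOutside p M x) (k : ℕ) : IsPowerOutside p M (x ^ k) := by
  induction k with
  | zero => intro q _ _; simp
  | succ k ih => rw [pow_succ]; exact ih.mul hx

/-- Factors with no common prime outside `M` have the property. -/
theorem IsPowerOutside.split (h : IsPowerOutside p M (x * y)) (hx : x ≠ 0) (hy : y ≠ 0)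
    (hxy : ∀ q : ℕ, q.Prime → ¬ q ∣ M → (q : ℤ) ∣ x → ¬ (q : ℤ) ∣ y) :
    IsPowerOutside p M x ∧ IsPowerOutside p M y := by
  have key : ∀ q : ℕ, q.Prime → ¬ q ∣ M → p ∣ padicValInt q x ∧ p ∣ padicValInt q y := by
    intro q hq hqM
    have : Fact q.Prime := ⟨hq⟩
    have hh := h q hq hqM
    rw [padicValInt.mul hx hy] at hh
    by_cases hd : (q : ℤ) ∣ x
    · rw [padicValInt.eq_zero_of_not_dvd (hxy q hq hqM hd)] at hh ⊢
      exact ⟨by simpa using hh, dvd_zero p⟩
    · rw [padicValInt.eq_zero_of_not_dvd hd] at hh ⊢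
      exact ⟨dvd_zero p, by simpa using hh⟩
  exact ⟨fun q hq hqM => (key q hq hqM).1, fun q hq hqM => (key q hq hqM).2⟩

/-- A prime outside `M` divides such a number to the exponent `p` or not at all. -/
theorem IsPowerOutside.pow_dvd (h : IsPowerOutside p M x) {q : ℕ} (hq : q.Prime) (hqM : ¬ q ∣ M)
    (hd : (q : ℤ) ∣ x) {k : ℕ} (hk : k ≤ p) : (q : ℤ) ^ k ∣ x := by
  rcases eq_or_ne x 0 with rfl | hx
  · simp
  have : Fact q.Prime := ⟨hq⟩
  have h1 : 1 ≤ padicValInt q x :=
    Nat.one_le_iff_ne_zero.2 fun e => by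
      rw [padicValInt.eq_zero_iff] at e
      rcases e with e | e | e
      · exact hq.ne_one e
      · exact hx e
      · exact e hd
  exact (pow_dvd_pow _ (hk.trans (Nat.le_of_dvd h1 (h q hq hqM)))).trans
    ((padicValInt_dvd_iff _ x).2 (Or.inr le_rfl))

end FA.Kubert

end
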