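import Fermat.Agent.Ribet.SignatureTwoPrimes
import Fermat.Agent.Ribet.ThirtyThree

/-!
# Eigenvalues at two and three of the small levels

The eigenforms of the levels dividing `M` for the `M` of the Kubert equations with a cusp form:
`-1` or `0` at two for `15`, `17`, `19`, `21`, and `-2` at three for `14`, `-1` for `22`, `1` or
`-3` for `26`.
-/

set_option autoImplicit false
set_option linter.unusedSectionVars false

noncomputable section

open WeierstrassCurve CongruenceSubgroup
open FA.Ribet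

namespace FA.Kubert

variable {N : ℕ}

/-- The eigenforms of a level of genus one have the coefficients of the curve. -/
theorem qCoeff_eq_of_genusOne [NeZero N] {E : WeierstrassCurve ℤ} (hΔ : E.Δ ≠ 0)
    (hE : E.IsSemistableModel) (hpf : E.Δ.natAbs.primeFactors = N.primeFactors)
    (hsq : Squarefree N) (hg : ModularCurve.genusFormula N = 1) {f : CuspForm (Gamma0 N) 2}
    (hf : f.IsNormalizedEigenform) {l : ℕ} (hl : l.Prime) (hlN : ¬ l ∣ N) :
    ModularFormClass.qCoeff f l = (E.apOfModel l : ℂ) := by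
  obtain ⟨g, hgn, hgl⟩ := exists_eigenform hΔ hE hpf hsq
  rw [eq_of_finrank_eq_one
    (Nat.cast_inj.mp ((Fermat.Agent.S20.result N).trans (by simpa using hg))) hgn hf]
  exact hgl l hl hlN

/-- The genus is not zero when there is an eigenform. -/
theorem genusFormula_ne_zero {f : CuspForm (Gamma0 N) 2} [NeZero N]
    (hf : f.IsNormalizedEigenform) : ModularCurve.genusFormula N ≠ 0 :=
  fun h => hf.ne_zero (cuspForm_eq_zero_of_genusFormula h f)

/-- A model whose discriminant is prime to `c₄` is semistable. -/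
theorem semistable_of_gcd {E : WeierstrassCurve ℤ} (h : Int.gcd E.Δ E.c₄ = 1) :
    E.IsSemistableModel := fun r hr hd hc => hr.ne_one (by
  have hr' : (r : ℤ) ∣ (Int.gcd E.Δ E.c₄ : ℤ) := Int.dvd_coe_gcd hd hc
  rw [h] at hr'
  exact Nat.dvd_one.mp (by exact_mod_cast hr'))

theorem curve19_two : curve19.apOfModel 2 = 0 := by
  have : Fact (Nat.Prime 2) := ⟨Nat.prime_two⟩
  rw [apOfModel_eq_nsPts (a₁ := 0) (a₂ := 1) (a₃ := 1) (a₄ := 1) (a₆ := 0) (by ext <;> rfl)]
  rfl

/-- The level of an eigenform of level dividing one of five levels of genus one. -/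
theorem level_eq {M : ℕ} (hM : M = 14 ∨ M = 15 ∨ M = 17 ∨ M = 19 ∨ M = 21) (hN : N ∣ M)
    [NeZero N] {f : CuspForm (Gamma0 N) 2} (hf : f.IsNormalizedEigenform) : N = M := by
  have hz := genusFormula_ne_zero hf
  have h1 : N ≠ 1 := fun h => hz (h ▸ genusFormula_eq_zero (Or.inl rfl) (one_dvd 6))
  have h2 : N ≠ 2 := fun h => hz (h ▸ genusFormula_eq_zero (Or.inl rfl) ⟨3, rfl⟩)
  have h3 : N ≠ 3 := fun h => hz (h ▸ genusFormula_eq_zero (Or.inl rfl) ⟨2, rfl⟩)
  have h5 : N ≠ 5 := fun h => hz (h ▸ genusFormula_eq_zero (Or.inr rfl) ⟨2, rfl⟩)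
  have h7 : N ≠ 7 := fun h => hz (h ▸ genusFormula_7)
  have hle : N ≤ 21 := (Nat.le_of_dvd (by omega) hN).trans (by omega)
  rcases hM with rfl | rfl | rfl | rfl | rfl <;> interval_cases N <;> omega

/-- **At two** for the levels dividing `15`, `17`, `19` and `21`. -/
theorem qCoeff_two_small {M : ℕ} (hM : M = 15 ∨ M = 17 ∨ M = 19 ∨ M = 21) (hN : N ∣ M)
    {f : CuspForm (Gamma0 N) 2} (hf : f.IsNormalizedEigenform) :
    ∃ c : ℤ, (c = -1 ∨ c = 0) ∧ ModularFormClass.qCoeff f 2 = (c : ℂ) := by
  have : NeZero N := ⟨by rintro rfl; have := Nat.eq_zero_of_zero_dvd hN; omega⟩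
  have hNM := level_eq (by omega) hN hf
  rcases hM with rfl | rfl | rfl | rfl <;> subst hNM
  · obtain ⟨E, -, -, -, ha, hEf⟩ := exists_curve_fifteen_twentyone (q := 5) (Or.inl rfl) hN hf
    exact ⟨-1, Or.inl rfl, (hEf 2 Nat.prime_two (by norm_num)).trans (by rw [ha])⟩
  · refine ⟨-1, Or.inl rfl, ?_⟩
    rw [qCoeff_eq_of_genusOne (E := curve17) (by decide) (semistable_of_gcd (by decide))
      (by rw [show curve17.Δ.natAbs = 17 from by decide]) (Nat.Prime.prime (by norm_num)).squarefree
      genusFormula_17 hf Nat.prime_two (by norm_num), curve17_two]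
  · refine ⟨0, Or.inr rfl, ?_⟩
    rw [qCoeff_eq_of_genusOne (E := curve19) (by decide) (semistable_of_gcd (by decide))
      (by rw [show curve19.Δ.natAbs = 19 from by decide]) (Nat.Prime.prime (by norm_num)).squarefree
      genusFormula_19 hf Nat.prime_two (by norm_num), curve19_two]
  · obtain ⟨E, -, -, -, ha, hEf⟩ := exists_curve_fifteen_twentyone (q := 7) (Or.inr rfl) hN hf
    exact ⟨-1, Or.inl rfl, (hEf 2 Nat.prime_two (by norm_num)).trans (by rw [ha])⟩

/-- **At three** for the levels dividing `14`. -/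
theorem qCoeff_three_fourteen (hN : N ∣ 14) {f : CuspForm (Gamma0 N) 2}
    (hf : f.IsNormalizedEigenform) : ModularFormClass.qCoeff f 3 = ((-2 : ℤ) : ℂ) := by
  have : NeZero N := ⟨by rintro rfl; simp at hN⟩
  obtain rfl := level_eq (Or.inl rfl) hN hf
  rw [qCoeff_eq_of_genusOne (E := curve14) (by decide)
    (semistable_of_Δ (show Nat.Prime 7 by norm_num) (i := 6) (j := 3) curve14_Δ
      (Or.inr (by decide)) (by decide))
    (natAbs_primeFactors (by norm_num) (i := 6) (j := 3) curve14_Δ (by norm_num) (by norm_num))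
    squarefree_fourteen genusFormula_14 hf Nat.prime_three (by norm_num), curve14_three]

/-- **At three** for the levels dividing `22`. -/
theorem qCoeff_three_twentyTwo (hN : N ∣ 22) {f : CuspForm (Gamma0 N) 2}
    (hf : f.IsNormalizedEigenform) : ModularFormClass.qCoeff f 3 = ((-1 : ℤ) : ℂ) := by
  have : NeZero N := ⟨by rintro rfl; simp at hN⟩
  have hz := genusFormula_ne_zero hf
  have h1 : N ≠ 1 := fun h => hz (h ▸ genusFormula_eq_zero (Or.inl rfl) (one_dvd 6))
  have h2 : N ≠ 2 := fun h => hz (h ▸ genusFormula_eq_zero (Or.inl rfl) ⟨3, rfl⟩)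
  have hle : N ≤ 22 := Nat.le_of_dvd (by norm_num) hN
  have hW : curve11.IsSemistableModel :=
    semistable_of_Δ (q := 11) (i := 0) (j := 1) (by norm_num) (by decide) (Or.inl rfl) (by decide)
  have hpf : curve11.Δ.natAbs.primeFactors = (11 : ℕ).primeFactors := by rw [curve11_Δ]; rfl
  obtain rfl | rfl : N = 11 ∨ N = 11 * 2 := by interval_cases N <;> omega
  · rw [qCoeff_eq_of_genusOne (E := curve11) (by decide) hW hpf squarefree_eleven genusFormula_11
      hf Nat.prime_three (by norm_num), curve11_three]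
  · obtain ⟨g, hg, hgl⟩ := exists_eigenform (E := curve11) (by decide) hW hpf squarefree_eleven
    rw [qCoeff_eq_of_old (M := 11) (Nat.cast_inj.mp ((Fermat.Agent.S20.result (11 * 2)).trans
      (by simpa using genusFormula_22))) hg hf (by norm_num), hgl 3 Nat.prime_three (by norm_num),
      curve11_three]

/-- **At three** for the levels dividing `26`: the traces of `26a` and `26b`. -/
theorem qCoeff_three_twentySix (hN : N ∣ 26) {f : CuspForm (Gamma0 N) 2}
    (hf : f.IsNormalizedEigenform) :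
    ∃ c : ℤ, (c = 1 ∨ c = -3) ∧ ModularFormClass.qCoeff f 3 = (c : ℂ) := by
  have : NeZero N := ⟨by rintro rfl; simp at hN⟩
  have hz := genusFormula_ne_zero hf
  have h1 : N ≠ 1 := fun h => hz (h ▸ genusFormula_eq_zero (Or.inl rfl) (one_dvd 6))
  have h2 : N ≠ 2 := fun h => hz (h ▸ genusFormula_eq_zero (Or.inl rfl) ⟨3, rfl⟩)
  have h13 : N ≠ 13 := fun h => hz (h ▸ genusFormula_13)
  have hle : N ≤ 26 := Nat.le_of_dvd (by norm_num) hN
  obtain rfl : N = 2 * 13 := by interval_cases N <;> omega
  obtain ⟨g₁, hg₁, hg₁l⟩ := exists_eigenform (E := curve26a) (by decide)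
    (semistable_of_Δ (show Nat.Prime 13 by norm_num) (i := 3) (j := 3) curve26a_Δ
      (Or.inr (by decide)) (by decide))
    (N := 2 * 13) (natAbs_primeFactors (by norm_num) (i := 3) (j := 3) curve26a_Δ (by norm_num)
      (by norm_num)) squarefree_twentysix
  obtain ⟨g₂, hg₂, hg₂l⟩ := exists_eigenform (E := curve26b) (by decide)
    (semistable_of_Δ (show Nat.Prime 13 by norm_num) (i := 7) (j := 1) (by decide)
      (Or.inr (by decide)) (by decide))
    (N := 2 * 13) (natAbs_primeFactors (by norm_num) (i := 7) (j := 1) (by decide) (by norm_num)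
      (by norm_num)) squarefree_twentysix
  have a3 : ModularFormClass.qCoeff g₁ 3 = 1 := by
    rw [hg₁l 3 Nat.prime_three (by norm_num), curve26a_three]; norm_num
  have b3 : ModularFormClass.qCoeff g₂ 3 = -3 := by
    rw [hg₂l 3 Nat.prime_three (by norm_num), curve26b_three]; norm_num
  obtain ⟨c, hc⟩ := exists_qCoeff_eq_sum (d := 1) (Nat.cast_inj.mp
      ((Fermat.Agent.S20.result (2 * 13)).trans (by simpa using genusFormula_26)))
    ![g₁, g₂] (fun c hc => by
      have c1 := hc 1
      have c3 := hc 3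
      simp [Fin.sum_univ_two, hg₁.qCoeff_one, hg₂.qCoeff_one, a3, b3] at c1 c3
      have z1 : c 1 = 0 := by linear_combination (1 / 4 : ℂ) * c1 + (-1 / 4 : ℂ) * c3
      have z0 : c 0 = 0 := by linear_combination c1 - z1
      intro i
      fin_cases i <;> assumption) f
  have hsum : ∀ n, ModularFormClass.qCoeff f n =
      c 0 * ModularFormClass.qCoeff g₁ n + c 1 * ModularFormClass.qCoeff g₂ n := fun n => by
    rw [hc]; simp [Fin.sum_univ_two]
  have sq : ∀ g : CuspForm (Gamma0 (2 * 13)) 2, g.IsNormalizedEigenform →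
      ModularFormClass.qCoeff g 9 = ModularFormClass.qCoeff g 3 ^ 2 - 3 := fun g hg => by
    have h := hg.qCoeff_prime_pow_of_not_dvd 3 0 Nat.prime_three (by norm_num)
    simp only [zero_add, pow_one, pow_zero, hg.qCoeff_one] at h
    rw [show (9 : ℕ) = 3 ^ 2 by norm_num, h]
    push_cast
    ring
  have e1 := hsum 1
  have e3 := hsum 3
  have e9 := hsum 9
  rw [hf.qCoeff_one, hg₁.qCoeff_one, hg₂.qCoeff_one] at e1
  rw [a3, b3] at e3
  rw [sq f hf, sq g₁ hg₁, sq g₂ hg₂, a3, b3] at e9
  set u := ModularFormClass.qCoeff f 3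
  have hprod : (u - 1) * (u + 3) = 0 := by linear_combination e9 + 2 * e3
  rcases mul_eq_zero.mp hprod with h | h
  · exact ⟨1, Or.inl rfl, by push_cast; linear_combination h⟩
  · exact ⟨-3, Or.inr rfl, by push_cast; linear_combination h⟩

end FA.Kubert

end
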