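import Fermat.Agent.Kubert.Exponents
import Fermat.Agent.Kubert.Levels
import Fermat.Agent.Ribet.Asymptotic

/-!
# Kubert's curves at two and three against the small levels

At a good prime the traces are `-2` and `-1` for the curve of order five and `-3` at three for that
of order seven, whose discriminant is even; the curve of order nine is bad at both primes. At a bad
prime the eigenvalue is `± (l + 1)` modulo `p`, never met by one of absolute value at most `l`.
-/

set_option autoImplicit false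

noncomputable section

open WeierstrassCurve

namespace FA.Kubert

/-- The lowered level divides `M`. -/
theorem exists_level_dvd {W : WeierstrassCurve ℤ} (hΔ : W.Δ ≠ 0) (hW : W.IsSemistableModel)
    {p : ℕ} (hp : p.Prime) (h11 : 11 ≤ p) {M : ℕ} (h : IsPowerOutside p M W.Δ) :
    ∃ N : ℕ, N ∣ M ∧ W.IsResiduallyModularOfLevel p N := by
  have := Fact.mk hp
  obtain ⟨N, hN, hres⟩ := FA.Root.exists_level_recipe (by omega : p ≠ 2) hΔ hW
    (FA.Thirteen.modRepIsIrreducible_all hΔ hW hp h11) (FA.Root.squarefree_badProd W)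
    (FA.Root.isResiduallyModularOfLevel_of_modular hp (FA.SS.semistableModular W hΔ hW))
  refine ⟨N, hN.trans (Finset.prod_primes_dvd M
    (fun q hq => (Nat.prime_of_mem_primeFactors (Finset.mem_filter.mp hq).1).prime)
    fun q hq => ?_), hres⟩
  by_contra hqM
  exact (Finset.mem_filter.mp hq).2
    (h q (Nat.prime_of_mem_primeFactors (Finset.mem_filter.mp hq).1) hqM)

/-- **Elimination at one prime** `l < 5` outside `M`: the eigenvalues at `l` are integers of
absolute value at most `l` other than the trace at a good `l`. -/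
theorem false_of_trace {W : WeierstrassCurve ℤ} (hΔ : W.Δ ≠ 0) (hW : W.IsSemistableModel)
    {p : ℕ} (hp : p.Prime) (h11 : 11 ≤ p) {M : ℕ} (hM : M ≠ 0) (hexp : IsPowerOutside p M W.Δ)
    {l : ℕ} (hl : l.Prime) (hl5 : l < 5) (hlM : ¬ l ∣ M)
    (hform : ∀ N : ℕ, N ∣ M → ∀ f : CuspForm (CongruenceSubgroup.Gamma0 N) 2,
      f.IsNormalizedEigenform → ∃ c : ℤ, ModularFormClass.qCoeff f l = (c : ℂ) ∧ c.natAbs ≤ l ∧
        (W.IsGoodPrimeFor l → W.apOfModel l ≠ c ∧ (W.apOfModel l).natAbs ≤ l)) : False := by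
  have := Fact.mk hp
  obtain ⟨N, hN, f, 𝔪, hf, hm, hpm, hcong⟩ := exists_level_dvd hΔ hW hp h11 hexp
  have : NeZero N := ⟨fun h => hM (Nat.eq_zero_of_zero_dvd (h ▸ hN))⟩
  obtain ⟨c, hc, hcl, hgoodl⟩ := hform N hN f hf
  have hlN : ¬ l ∣ N := fun h => hlM (h.trans hN)
  have hsmall : ∀ d : ℤ, (p : ℤ) ∣ c - d → d.natAbs ≤ l + 1 → d = c := fun d hd hdl => by
    by_contra hne
    have := Nat.le_of_dvd (by omega) (Int.natCast_dvd.mp hd)
    omega
  by_cases hgood : W.IsGoodPrimeFor l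
  · obtain ⟨hne, hb⟩ := hgoodl hgood
    obtain ⟨a, ha, ham⟩ := hcong l hl hgood hlN (by omega)
    obtain rfl : a = (c : integralClosure ℤ ℂ) := Subtype.ext (by rw [ha, hc]; simp)
    refine hne (hsmall _ (FA.Ribet.dvd_of_intCast_mem hp hm hpm ?_) (by omega))
    rwa [Int.cast_sub]
  · obtain ⟨s, hs, hsm⟩ := FA.Ribet.eigen_congr_mult hΔ hW (by omega : p ≠ 2) hf hm hpm hcong hl
      hlN (by omega) (not_not.mp hgood) (a := (c : integralClosure ℤ ℂ)) (by rw [hc]; simp)
    have := hsmall (s * ((l : ℤ) + 1))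
      (FA.Ribet.dvd_of_intCast_mem hp hm hpm (by rwa [Int.cast_sub]))
      (by rcases hs with rfl | rfl <;> omega)
    rcases hs with rfl | rfl <;> omega

variable {u v : ℤ}

private theorem nsPts_curve5_two : ∀ a b : ZMod 2,
    (⟨b - a, -(a * b), -(a * b ^ 2), 0, 0⟩ : WeierstrassCurve (ZMod 2)).Δ ≠ 0 →
    (2 : ℤ) - ((FA.Ribet.nsPts (b - a) (-(a * b)) (-(a * b ^ 2)) 0 0).card : ℤ) = -2 := by
  decide +kernel

private theorem nsPts_curve5_three : ∀ a b : ZMod 3,
    (⟨b - a, -(a * b), -(a * b ^ 2), 0, 0⟩ : WeierstrassCurve (ZMod 3)).Δ ≠ 0 →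
    (3 : ℤ) - ((FA.Ribet.nsPts (b - a) (-(a * b)) (-(a * b ^ 2)) 0 0).card : ℤ) = -1 := by
  decide +kernel

private theorem nsPts_curve7_three : ∀ a b : ZMod 3,
    (⟨b ^ 2 + a * b - a ^ 2, -(a ^ 2 * (a - b) * b), -(a ^ 2 * (a - b) * b ^ 3), 0, 0⟩ :
      WeierstrassCurve (ZMod 3)).Δ ≠ 0 →
    (3 : ℤ) - ((FA.Ribet.nsPts (b ^ 2 + a * b - a ^ 2) (-(a ^ 2 * (a - b) * b))
      (-(a ^ 2 * (a - b) * b ^ 3)) 0 0).card : ℤ) = -3 := by
  decide +kernel

/-- The reduction of a good model is nonsingular. -/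
theorem reductionMod_Δ_ne_zero {W : WeierstrassCurve ℤ} {l : ℕ} (h : W.IsGoodPrimeFor l) :
    (W.reductionMod l).Δ ≠ 0 := by
  rw [reductionMod, map_Δ, eq_intCast, ne_eq, ZMod.intCast_zmod_eq_zero_iff_dvd]
  exact h

/-- The trace at a good two of the curve with a point of order five. -/
theorem curve5_ap_two (h : (curve5 u v).IsGoodPrimeFor 2) : (curve5 u v).apOfModel 2 = -2 := by
  have : Fact (Nat.Prime 2) := ⟨Nat.prime_two⟩
  have hred : (curve5 u v).reductionMod 2 = ⟨(v : ZMod 2) - u, -((u : ZMod 2) * v),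
      -((u : ZMod 2) * (v : ZMod 2) ^ 2), 0, 0⟩ := by
    ext <;> simp [reductionMod, curve5]
  rw [FA.Ribet.apOfModel_eq_nsPts hred]
  exact nsPts_curve5_two _ _ (hred ▸ reductionMod_Δ_ne_zero h)

/-- The trace at a good three of the curve with a point of order five. -/
theorem curve5_ap_three (h : (curve5 u v).IsGoodPrimeFor 3) : (curve5 u v).apOfModel 3 = -1 := by
  have : Fact (Nat.Prime 3) := ⟨Nat.prime_three⟩
  have hred : (curve5 u v).reductionMod 3 = ⟨(v : ZMod 3) - u, -((u : ZMod 3) * v),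
      -((u : ZMod 3) * (v : ZMod 3) ^ 2), 0, 0⟩ := by
    ext <;> simp [reductionMod, curve5]
  rw [FA.Ribet.apOfModel_eq_nsPts hred]
  exact nsPts_curve5_three _ _ (hred ▸ reductionMod_Δ_ne_zero h)

/-- The trace at a good three of the curve with a point of order seven. -/
theorem curve7_ap_three (h : (curve7 u v).IsGoodPrimeFor 3) : (curve7 u v).apOfModel 3 = -3 := by
  have : Fact (Nat.Prime 3) := ⟨Nat.prime_three⟩
  have hred : (curve7 u v).reductionMod 3 = ⟨(v : ZMod 3) ^ 2 + u * v - (u : ZMod 3) ^ 2,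
      -((u : ZMod 3) ^ 2 * (u - v) * v), -((u : ZMod 3) ^ 2 * (u - v) * (v : ZMod 3) ^ 3),
      0, 0⟩ := by
    ext <;> simp [reductionMod, curve7]
  rw [FA.Ribet.apOfModel_eq_nsPts hred]
  exact nsPts_curve7_three _ _ (hred ▸ reductionMod_Δ_ne_zero h)

/-- The product `u v (u - v)` is even. -/
theorem two_dvd_prod (u v : ℤ) : (2 : ℤ) ∣ u * v * (u - v) := by
  have key : ∀ a b : ZMod 2, a * b * (a - b) = 0 := by decide
  exact (ZMod.intCast_zmod_eq_zero_iff_dvd _ 2).1 (by push_cast; exact key _ _)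

/-- The curve with a point of order seven is bad at two. -/
theorem curve7_bad_two : ¬ (curve7 u v).IsGoodPrimeFor 2 := fun h =>
  h (by rw [curve7_Δ]; exact dvd_mul_of_dvd_left ((two_dvd_prod u v).pow (by norm_num)) _)

/-- The curve with a point of order nine is bad at two. -/
theorem curve9_bad_two : ¬ (curve9 u v).IsGoodPrimeFor 2 := fun h =>
  h (by rw [curve9_Δ]; exact dvd_mul_of_dvd_left ((two_dvd_prod u v).pow (by norm_num)) _)

/-- The curve with a point of order nine is bad at three. -/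
theorem curve9_bad_three (h3 : ¬ (3 : ℤ) ∣ u + v) : ¬ (curve9 u v).IsGoodPrimeFor 3 := fun h => by
  have key : ∀ a b : ZMod 3, a + b ≠ 0 → a * b * (a - b) = 0 := by decide
  have hd : (3 : ℤ) ∣ u * v * (u - v) := (ZMod.intCast_zmod_eq_zero_iff_dvd _ 3).1 (by
    push_cast
    refine key _ _ fun h0 => h3 ((ZMod.intCast_zmod_eq_zero_iff_dvd _ 3).1 ?_)
    push_cast
    exact h0)
  exact h (by rw [curve9_Δ]; exact dvd_mul_of_dvd_left (hd.pow (by norm_num)) _)

end FA.Kubert

end
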